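/-
S41 / C7c [PD-DICT] — concrete instance, interface-independent `SL(2,ℤ)` half (helper24).

`G = SL(2,ℤ)`, `Γ ≤ G`, `Ω = G ⧸ Γ` with the left multiplication action, base point `ω₀ = ↑1`.

* (I1) `stabEquiv`, `mem_iff_smul_base`, `neg_one_smul`, `S_mul_S_smul`, `ST_pow_three_smul`,
  `TS_pow_three_smul`, `closure_S_ST`, `closure_S_TS`, `closure_isOfFinOrder`;
* (I2) `isParabolicHom_iff_conj_T` : the Prelude parabolic condition (`trace ^ 2 = 4`) is the
  vanishing on all conjugates of powers of `T` lying in `Γ`.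
-/
import Mathlib
import Fermat.Prelude.Def_ModularCurve_PeriodMap
import Fermat.Agent.S21.ParaClass

set_option autoImplicit false

namespace Fermat.Agent.S41.PDInst24

open Matrix ModularGroup
open scoped MatrixGroups

/-! ### (I1) the `G`-set `G ⧸ Γ` -/

section Basic

variable (Γ : Subgroup SL(2, ℤ))

/-- the base point of `SL(2,ℤ) ⧸ Γ`. -/
def base : SL(2, ℤ) ⧸ Γ := ((1 : SL(2, ℤ)) : SL(2, ℤ) ⧸ Γ)

theorem stabilizer_base : MulAction.stabilizer SL(2, ℤ) (base Γ) = Γ :=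
  MulAction.stabilizer_quotient Γ

theorem mem_iff_smul_base (g : SL(2, ℤ)) : g ∈ Γ ↔ g • base Γ = base Γ := by
  rw [← MulAction.mem_stabilizer_iff, stabilizer_base]

/-- the stabiliser of the base point, as a type, is `Γ`. -/
def stabEquiv : ↥(MulAction.stabilizer SL(2, ℤ) (base Γ)) ≃* ↥Γ :=
  MulEquiv.subgroupCongr (stabilizer_base Γ)

@[simp] theorem coe_stabEquiv (γ : MulAction.stabilizer SL(2, ℤ) (base Γ)) :
    ((stabEquiv Γ γ : Γ) : SL(2, ℤ)) = (γ : SL(2, ℤ)) := rfl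

@[simp] theorem coe_stabEquiv_symm (γ : Γ) :
    (((stabEquiv Γ).symm γ : MulAction.stabilizer SL(2, ℤ) (base Γ)) : SL(2, ℤ)) =
      (γ : SL(2, ℤ)) := rfl

variable {Γ}

theorem neg_one_smul (hneg : (-1 : SL(2, ℤ)) ∈ Γ) (x : SL(2, ℤ) ⧸ Γ) :
    (-1 : SL(2, ℤ)) • x = x := by
  induction x using QuotientGroup.induction_on with
  | H g =>
    show (QuotientGroup.mk (-1 * g) : SL(2, ℤ) ⧸ Γ) = QuotientGroup.mk g
    rw [eq_comm, QuotientGroup.eq]
    have : g⁻¹ * (-1 * g) = -1 := by rw [neg_one_mul, mul_neg, inv_mul_cancel]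
    rw [this]; exact hneg

theorem S_mul_S_eq : (S * S : SL(2, ℤ)) = -1 := by
  ext i j
  fin_cases i <;> fin_cases j <;> simp [S]

theorem ST_pow_three_eq : ((S * T) ^ 3 : SL(2, ℤ)) = -1 := by
  ext i j
  fin_cases i <;> fin_cases j <;> simp [S, T, pow_succ, Matrix.mul_apply, Fin.sum_univ_two]

theorem TS_pow_three_eq : ((T * S) ^ 3 : SL(2, ℤ)) = -1 := by
  ext i j
  fin_cases i <;> fin_cases j <;> simp [S, T, pow_succ, Matrix.mul_apply, Fin.sum_univ_two]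

theorem S_mul_S_smul (hneg : (-1 : SL(2, ℤ)) ∈ Γ) (x : SL(2, ℤ) ⧸ Γ) :
    (S * S : SL(2, ℤ)) • x = x := by
  rw [S_mul_S_eq]; exact neg_one_smul hneg x

theorem ST_pow_three_smul (hneg : (-1 : SL(2, ℤ)) ∈ Γ) (x : SL(2, ℤ) ⧸ Γ) :
    ((S * T) ^ 3 : SL(2, ℤ)) • x = x := by
  rw [ST_pow_three_eq]; exact neg_one_smul hneg x

theorem TS_pow_three_smul (hneg : (-1 : SL(2, ℤ)) ∈ Γ) (x : SL(2, ℤ) ⧸ Γ) :
    ((T * S) ^ 3 : SL(2, ℤ)) • x = x := by
  rw [TS_pow_three_eq]; exact neg_one_smul hneg x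

theorem closure_S_ST : Subgroup.closure ({S, S * T} : Set SL(2, ℤ)) = ⊤ := by
  rw [eq_top_iff, ← SpecialLinearGroup.SL2Z_generators, Subgroup.closure_le]
  intro x hx
  rcases hx with rfl | hx
  · exact Subgroup.subset_closure (Set.mem_insert _ _)
  · rw [Set.mem_singleton_iff] at hx
    subst hx
    have h1 : (S : SL(2, ℤ)) ∈ Subgroup.closure ({S, S * T} : Set SL(2, ℤ)) :=
      Subgroup.subset_closure (Set.mem_insert _ _)
    have h2 : (S * T : SL(2, ℤ)) ∈ Subgroup.closure ({S, S * T} : Set SL(2, ℤ)) :=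
      Subgroup.subset_closure (Set.mem_insert_of_mem _ rfl)
    have := Subgroup.mul_mem _ (Subgroup.inv_mem _ h1) h2
    rwa [inv_mul_cancel_left] at this

theorem closure_S_TS : Subgroup.closure ({S, T * S} : Set SL(2, ℤ)) = ⊤ := by
  rw [eq_top_iff, ← SpecialLinearGroup.SL2Z_generators, Subgroup.closure_le]
  intro x hx
  rcases hx with rfl | hx
  · exact Subgroup.subset_closure (Set.mem_insert _ _)
  · rw [Set.mem_singleton_iff] at hx
    subst hx
    have h1 : (S : SL(2, ℤ)) ∈ Subgroup.closure ({S, T * S} : Set SL(2, ℤ)) :=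
      Subgroup.subset_closure (Set.mem_insert _ _)
    have h2 : (T * S : SL(2, ℤ)) ∈ Subgroup.closure ({S, T * S} : Set SL(2, ℤ)) :=
      Subgroup.subset_closure (Set.mem_insert_of_mem _ rfl)
    have := Subgroup.mul_mem _ h2 (Subgroup.inv_mem _ h1)
    rwa [mul_inv_cancel_right] at this

theorem isOfFinOrder_S : IsOfFinOrder (S : SL(2, ℤ)) := by
  rw [isOfFinOrder_iff_pow_eq_one]
  refine ⟨4, by norm_num, ?_⟩
  have : (S : SL(2, ℤ)) ^ 4 = (S * S) * (S * S) := by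
    rw [show (4 : ℕ) = 2 + 2 from rfl, pow_add, pow_two]
  rw [this, S_mul_S_eq]; simp

theorem isOfFinOrder_ST : IsOfFinOrder (S * T : SL(2, ℤ)) := by
  rw [isOfFinOrder_iff_pow_eq_one]
  refine ⟨6, by norm_num, ?_⟩
  have : (S * T : SL(2, ℤ)) ^ 6 = (S * T) ^ 3 * (S * T) ^ 3 := by
    rw [← pow_add]
  rw [this, ST_pow_three_eq]; simp

/-- `SL(2,ℤ)` is generated by its elements of finite order. -/
theorem closure_isOfFinOrder :
    Subgroup.closure {g : SL(2, ℤ) | IsOfFinOrder g} = ⊤ := by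
  rw [eq_top_iff, ← closure_S_ST]
  apply Subgroup.closure_mono
  intro x hx
  rcases hx with rfl | hx
  · exact isOfFinOrder_S
  · rw [Set.mem_singleton_iff] at hx
    subst hx
    exact isOfFinOrder_ST

instance [Γ.FiniteIndex] : Finite (SL(2, ℤ) ⧸ Γ) := Subgroup.finite_quotient_of_finiteIndex

end Basic

/-! ### (I2) parabolic = vanishing on the conjugates of powers of `T` -/

section Parabolic

open ModularCurve.Period

variable {Γ : Subgroup SL(2, ℤ)} {A : Type*} [AddCommGroup A]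

theorem trace_conj_T_zpow (δ : SL(2, ℤ)) (m : ℤ) :
    ((δ * T ^ m * δ⁻¹ : SL(2, ℤ)) : Matrix (Fin 2) (Fin 2) ℤ).trace = 2 := by
  have h1 : ((δ * T ^ m * δ⁻¹ : SL(2, ℤ)) : Matrix (Fin 2) (Fin 2) ℤ) =
      (δ * T ^ m : SL(2, ℤ)).1 * (δ⁻¹ : SL(2, ℤ)).1 := rfl
  rw [h1, Matrix.trace_mul_comm]
  have h2 : (δ⁻¹ : SL(2, ℤ)).1 * (δ * T ^ m : SL(2, ℤ)).1 =
      ((δ⁻¹ * (δ * T ^ m) : SL(2, ℤ)) : Matrix (Fin 2) (Fin 2) ℤ) := rfl
  rw [h2, inv_mul_cancel_left, ModularGroup.coe_T_zpow, Matrix.trace_fin_two]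
  simp

/-- **(I2)** for `-1 ∈ Γ` and a target without `2`-torsion, the Prelude parabolic condition is the
vanishing on all conjugates of powers of `T` which lie in `Γ`. -/
theorem isParabolicHom_iff_conj_T (hneg : (-1 : SL(2, ℤ)) ∈ Γ)
    (h2 : ∀ a : A, a + a = 0 → a = 0) (φ : Additive Γ →+ A) :
    IsParabolicHom Γ φ ↔
      ∀ (δ : SL(2, ℤ)) (m : ℤ) (h : δ * T ^ m * δ⁻¹ ∈ Γ),
        φ (Additive.ofMul (⟨_, h⟩ : Γ)) = 0 := by
  constructor
  · intro hφ δ m h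
    apply hφ
    show ((δ * T ^ m * δ⁻¹ : SL(2, ℤ)) : Matrix (Fin 2) (Fin 2) ℤ).trace ^ 2 = 4
    rw [trace_conj_T_zpow]; norm_num
  · intro hφ γ hγ
    -- `φ (-1) = 0`
    have hneg0 : φ (Additive.ofMul (⟨-1, hneg⟩ : Γ)) = 0 := by
      apply h2
      rw [← map_add, ← ofMul_mul]
      have : (⟨-1, hneg⟩ : Γ) * ⟨-1, hneg⟩ = 1 := by
        apply Subtype.ext
        show (-1 : SL(2, ℤ)) * -1 = 1
        simp
      rw [this, ofMul_one, map_zero]
    obtain ⟨δ, m, h | h⟩ := Fermat.Agent.S21.ParaClass.exists_conj_T_zpow (γ : SL(2, ℤ)) hγ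
    · have hmem : δ * T ^ m * δ⁻¹ ∈ Γ := h ▸ γ.2
      have := hφ δ m hmem
      have heq : (⟨_, hmem⟩ : Γ) = γ := Subtype.ext h.symm
      rwa [heq] at this
    · have hmem : δ * T ^ m * δ⁻¹ ∈ Γ := by
        have h3 : δ * T ^ m * δ⁻¹ = -1 * (γ : SL(2, ℤ)) := by
          rw [h]; simp
        rw [h3]
        exact Γ.mul_mem hneg γ.2
      have h4 := hφ δ m hmem
      have heq : γ = (⟨-1, hneg⟩ : Γ) * ⟨_, hmem⟩ := by
        apply Subtype.ext
        show (γ : SL(2, ℤ)) = -1 * (δ * T ^ m * δ⁻¹)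
        rw [h]; simp
      rw [heq, ofMul_mul, map_add, hneg0, h4, add_zero]

end Parabolic

end Fermat.Agent.S41.PDInst24
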