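/-
S41 / C7c [PD-DICT] — naturality of the Shapiro evaluation for `res` / `cores` (helper24).

Vocabulary of `CuspSum22.Core` (`act`, `IsCoc`, `ev`).  `π : Ω' → Ω` an equivariant map of `G`-sets
(think `G ⧸ Γ' → G ⧸ Γ` for `Γ' ≤ Γ`), `pull π m = m ∘ π`, `push π m' y = ∑_{π x = y} m' x`.

* `isCoc_pull`, `isCoc_push` : pull-backs / push-forwards of crossed homs are crossed homs;
* `ev_pull` : `ev ω₀' (pull ∘ z) = (ev (π ω₀') z)` restricted to `Stab ω₀' ≤ Stab (π ω₀')` (= `res`);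
* `sum_ev_eq_ev_push` : the TRANSFER formula: for representatives `r i` of the fibre over `π ω₀'`
  and ANY `(σ, c)` with `r i * γ = c i * r (σ i)`, `c i ∈ Stab ω₀'`:
  `∑ i, ev ω₀' z' (c i) = ev (π ω₀') (push ∘ z') γ` (= `cores`, in the `of_reps` form of
  `Hecke15.heckeHom_apply_of_reps`, so it applies to any ambient-group formulation);
* `heckeHom_ev_push` : the same, literally for `Hecke15.heckeHom`.
-/
import Mathlib
import Fermat.Agent.S41.CuspSum22.Core
import Fermat.Agent.S41.Hecke15.Abstract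

set_option autoImplicit false
set_option linter.unusedSectionVars false

namespace Fermat.Agent.S41.PDInst24

open Fermat.Agent.S41.CuspSum22 Finset

variable {G : Type*} [Group G] {Ω' Ω : Type*} [MulAction G Ω'] [MulAction G Ω]
variable {R : Type*} [CommRing R]

/-- pull-back of functions along `π`. -/
def pull (π : Ω' → Ω) (m : Ω → R) : Ω' → R := fun x => m (π x)

/-- push-forward (sum over the fibres) of functions along `π`. -/
def push [Fintype Ω'] [DecidableEq Ω] (π : Ω' → Ω) (m' : Ω' → R) : Ω → R :=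
  fun y => ∑ x ∈ univ.filter (fun x => π x = y), m' x

@[simp] theorem pull_apply (π : Ω' → Ω) (m : Ω → R) (x : Ω') : pull π m x = m (π x) := rfl

theorem push_apply [Fintype Ω'] [DecidableEq Ω] (π : Ω' → Ω) (m' : Ω' → R) (y : Ω) :
    push π m' y = ∑ x ∈ univ.filter (fun x => π x = y), m' x := rfl

section Equivariant

variable {π : Ω' → Ω} (hπ : ∀ (g : G) (x : Ω'), π (g • x) = g • π x)
include hπ

theorem act_pull (g : G) (m : Ω → R) : act g (pull π m) = pull π (act g m) := by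
  funext x
  simp only [act_apply, pull_apply, hπ]

theorem act_push [Fintype Ω'] [DecidableEq Ω] (g : G) (m' : Ω' → R) :
    act g (push π m') = push π (act g m') := by
  funext y
  simp only [act_apply, push_apply]
  refine Finset.sum_bij' (fun x _ => g • x) (fun x _ => g⁻¹ • x) ?_ ?_ ?_ ?_ ?_
  · intro x hx
    rw [mem_filter] at hx ⊢
    refine ⟨mem_univ _, ?_⟩
    rw [hπ, hx.2, smul_inv_smul]
  · intro x hx
    rw [mem_filter] at hx ⊢
    refine ⟨mem_univ _, ?_⟩
    rw [hπ, hx.2]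
  · intro x _; rw [inv_smul_smul]
  · intro x _; rw [smul_inv_smul]
  · intro x _; rw [inv_smul_smul]

theorem isCoc_pull {z : G → Ω → R} (hz : IsCoc z) : IsCoc (fun g => pull π (z g)) := by
  intro g h
  show pull π (z (g * h)) = pull π (z g) + act g (pull π (z h))
  rw [hz g h, act_pull hπ]
  rfl

theorem isCoc_push [Fintype Ω'] [DecidableEq Ω] {z' : G → Ω' → R} (hz' : IsCoc z') :
    IsCoc (fun g => push π (z' g)) := by
  intro g h
  show push π (z' (g * h)) = push π (z' g) + act g (push π (z' h))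
  rw [hz' g h, act_push hπ]
  funext y
  simp only [push_apply, Pi.add_apply, Finset.sum_add_distrib]

theorem stabilizer_le (ω₀' : Ω') :
    MulAction.stabilizer G ω₀' ≤ MulAction.stabilizer G (π ω₀') := by
  intro g hg
  rw [MulAction.mem_stabilizer_iff] at hg ⊢
  rw [← hπ, hg]

/-- `res`: evaluation of the pulled-back crossed hom is the restriction of the evaluation. -/
theorem ev_pull (ω₀' : Ω') (z : G → Ω → R) (γ : MulAction.stabilizer G ω₀') :
    ev ω₀' (fun g => pull π (z g)) γ =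
      ev (π ω₀') z ⟨(γ : G), stabilizer_le hπ ω₀' γ.2⟩ := rfl

/-- `cores`: **transfer formula** for the evaluation of a pushed-forward crossed hom. -/
theorem sum_ev_eq_ev_push [Fintype Ω'] [DecidableEq Ω] (ω₀' : Ω') {z' : G → Ω' → R}
    (hz' : IsCoc z') {ι : Type*} [Fintype ι] (r : ι → G)
    (hfib : ∀ i, π ((r i)⁻¹ • ω₀') = π ω₀')
    (hbij : ∀ x, π x = π ω₀' → ∃! i, (r i)⁻¹ • ω₀' = x)
    (γ : MulAction.stabilizer G (π ω₀')) (σ : ι ≃ ι) (c : ι → MulAction.stabilizer G ω₀')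
    (h : ∀ i, r i * (γ : G) = (c i : G) * r (σ i)) :
    ∑ i, ev ω₀' z' (c i) = ev (π ω₀') (fun g => push π (z' g)) γ := by
  -- the pointwise identity
  have h1 : ∀ i, ev ω₀' z' (c i) =
      z' (r i) ω₀' - z' (r (σ i)) ω₀' + z' (γ : G) ((r i)⁻¹ • ω₀') := by
    intro i
    have e1 : z' (r i * (γ : G)) ω₀' = z' (r i) ω₀' + z' (γ : G) ((r i)⁻¹ • ω₀') := by
      rw [hz' (r i) (γ : G)]; rfl
    have e2 : z' ((c i : G) * r (σ i)) ω₀' = z' (c i : G) ω₀' + z' (r (σ i)) ω₀' := by
      rw [hz' (c i : G) (r (σ i))]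
      show z' (c i : G) ω₀' + z' (r (σ i)) ((c i : G)⁻¹ • ω₀') = _
      rw [inv_smul_base]
    rw [h i, e2] at e1
    rw [ev_apply]
    linear_combination e1
  rw [Finset.sum_congr rfl fun i _ => h1 i, Finset.sum_add_distrib, Finset.sum_sub_distrib,
    Equiv.sum_comp σ (fun i => z' (r i) ω₀'), sub_self, zero_add, ev_apply, push_apply]
  -- reindex the fibre by `ι`
  refine Finset.sum_bij (fun i _ => (r i)⁻¹ • ω₀') ?_ ?_ ?_ ?_
  · intro i _
    rw [mem_filter]; exact ⟨mem_univ _, hfib i⟩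
  · intro i _ j _ hij
    obtain ⟨k, _, hk⟩ := hbij ((r i)⁻¹ • ω₀') (hfib i)
    rw [hk i rfl, hk j hij.symm]
  · intro x hx
    rw [mem_filter] at hx
    obtain ⟨i, hi, _⟩ := hbij x hx.2
    exact ⟨i, mem_univ _, hi⟩
  · intro i _; rfl

end Equivariant

/-- the evaluation of a crossed hom, as an additive hom on `Additive (Stab ω₀)`. -/
def evHom (ω₀ : Ω) {z : G → Ω → R} (hz : IsCoc z) :
    Additive (MulAction.stabilizer G ω₀) →+ R where
  toFun γ := ev ω₀ z γ.toMul
  map_zero' := by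
    show ev ω₀ z 1 = 0
    rw [ev_apply, Subgroup.coe_one, hz.map_one]; rfl
  map_add' γ δ := ev_mul hz γ.toMul δ.toMul

@[simp] theorem evHom_apply (ω₀ : Ω) {z : G → Ω → R} (hz : IsCoc z)
    (γ : MulAction.stabilizer G ω₀) : evHom ω₀ hz (Additive.ofMul γ) = ev ω₀ z γ := rfl

/-- `cores` in helper15's API: the double-coset operator attached to representatives of the fibre
over `π ω₀'` maps `ev ω₀' z'` to the evaluation of the pushed-forward crossed hom. -/
theorem heckeHom_ev_push [Fintype Ω'] [DecidableEq Ω] {π : Ω' → Ω}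
    (hπ : ∀ (g : G) (x : Ω'), π (g • x) = g • π x) (ω₀' : Ω') {z' : G → Ω' → R}
    (hz' : IsCoc z') {ι : Type*} [Fintype ι] (r : ι → G)
    (hfib : ∀ i, π ((r i)⁻¹ • ω₀') = π ω₀')
    (hbij : ∀ x, π x = π ω₀' → ∃! i, (r i)⁻¹ • ω₀' = x)
    (hα : Hecke15.IsStable (MulAction.stabilizer G ω₀').subtype
      (MulAction.stabilizer G (π ω₀')).subtype r)
    (γ : MulAction.stabilizer G (π ω₀')) :
    Hecke15.heckeHom (MulAction.stabilizer G ω₀').subtype
        (Subgroup.subtype_injective _) (MulAction.stabilizer G (π ω₀')).subtype r hα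
        (evHom ω₀' hz') (Additive.ofMul γ) =
      ev (π ω₀') (fun g => push π (z' g)) γ := by
  obtain ⟨σ, c, h⟩ := hα γ
  rw [Hecke15.heckeHom_apply_of_reps _ _ _ r hα _ γ σ c h]
  exact sum_ev_eq_ev_push hπ ω₀' hz' r hfib hbij γ σ c h

/-- representatives of the fibre over `π ω₀'` always form a stable family (so `cores` exists). -/
theorem isStable_of_fibre {π : Ω' → Ω}
    (hπ : ∀ (g : G) (x : Ω'), π (g • x) = g • π x) (ω₀' : Ω') {ι : Type*} (r : ι → G)
    (hfib : ∀ i, π ((r i)⁻¹ • ω₀') = π ω₀')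
    (hbij : ∀ x, π x = π ω₀' → ∃! i, (r i)⁻¹ • ω₀' = x) :
    Hecke15.IsStable (MulAction.stabilizer G ω₀').subtype
      (MulAction.stabilizer G (π ω₀')).subtype r := by
  intro γ
  -- the permutation of the index set induced by `x ↦ γ⁻¹ • x` on the fibre
  have hγ : (γ : G) • π ω₀' = π ω₀' := MulAction.mem_stabilizer_iff.mp γ.2
  have hγi : (γ : G)⁻¹ • π ω₀' = π ω₀' := by rw [inv_smul_eq_iff, hγ]
  have hf1 : ∀ i, π ((γ : G)⁻¹ • (r i)⁻¹ • ω₀') = π ω₀' := fun i => by rw [hπ, hfib, hγi]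
  have hf2 : ∀ i, π ((γ : G) • (r i)⁻¹ • ω₀') = π ω₀' := fun i => by rw [hπ, hfib, hγ]
  choose s hs hsu using fun i => hbij _ (hf1 i)
  choose s' hs' hsu' using fun i => hbij _ (hf2 i)
  have hinj : ∀ i j, (r i)⁻¹ • ω₀' = (r j)⁻¹ • ω₀' → i = j := by
    intro i j hij
    obtain ⟨k, _, hk⟩ := hbij ((r i)⁻¹ • ω₀') (hfib i)
    rw [hk i rfl, hk j hij.symm]
  let σ : ι ≃ ι :=
    { toFun := s
      invFun := s'
      left_inv := fun i => by
        apply hinj
        rw [hs', hs, smul_inv_smul]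
      right_inv := fun i => by
        apply hinj
        rw [hs, hs', inv_smul_smul] }
  refine ⟨σ, fun i => ⟨r i * (γ : G) * (r (σ i))⁻¹, ?_⟩, fun i => ?_⟩
  · rw [MulAction.mem_stabilizer_iff, mul_smul, mul_smul]
    show r i • (γ : G) • (r (s i))⁻¹ • ω₀' = ω₀'
    rw [hs, smul_inv_smul, smul_inv_smul]
  · show r i * (γ : G) = r i * (γ : G) * (r (σ i))⁻¹ * r (σ i)
    rw [inv_mul_cancel_right]

end Fermat.Agent.S41.PDInst24
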