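/-
S41 / C7c [PD-DICT] — naturality of the dictionary crossed hom `c_m` for `res` / `cores`
in the instance `G = SL(2,ℤ)` (helper24).

`IsCm m z` : `z` is THE crossed hom `SL(2,ℤ) → (Ω → R)` with `z S = S • m - m`, `z (S * T) = 0`
(literally the body of `Pres43.sl2_existsUnique_crossed_fun_sub`; helper51's `cm Γ m` satisfies it).

* `IsCm.unique`, `exists_isCm`, `IsCm.add`, `IsCm.neg`, `IsCm.zero`;
* `isCm_pull`, `isCm_push` : `c_{pull m} = pull ∘ c_m`, `c_{push m'} = push ∘ c_{m'}`;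
* for `Γ' ≤ Γ ≤ SL(2,ℤ)`, `proj : G ⧸ Γ' → G ⧸ Γ`, `evΓ Γ hz : Additive Γ →+ R`:
  `evΓ_pull` (= `res`) and `sum_evΓ_eq_evΓ_push` (= `cores`, transfer formula for ANY right
  transversal `r` of `Γ'` in `Γ` and ANY `(σ, c)` with `r i * γ = c i * r (σ i)`).
-/
import Mathlib
import Fermat.Agent.S41.Pres43.Inst
import Fermat.Agent.S41.PDInst24.Basic
import Fermat.Agent.S41.PDInst24.Functorial

set_option autoImplicit false
set_option linter.unusedSectionVars false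

namespace Fermat.Agent.S41.PDInst24

open Matrix ModularGroup Finset
open Fermat.Agent.S41.CuspSum22
open scoped MatrixGroups

section IsCm

variable {Ω' Ω : Type*} [MulAction SL(2, ℤ) Ω'] [MulAction SL(2, ℤ) Ω] {R : Type*} [CommRing R]

/-- `z` is the crossed hom attached to `m`: `z S = S • m - m`, `z (S * T) = 0`. -/
def IsCm (m : Ω → R) (z : SL(2, ℤ) → Ω → R) : Prop :=
  (∀ g h ω, z (g * h) ω = z g ω + z h (g⁻¹ • ω)) ∧
    (∀ ω, z S ω = m ((S : SL(2, ℤ))⁻¹ • ω) - m ω) ∧ z (S * T) = 0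

theorem IsCm.isCoc {m : Ω → R} {z : SL(2, ℤ) → Ω → R} (h : IsCm m z) : IsCoc z :=
  fun g h' => funext fun ω => h.1 g h' ω

theorem IsCm.unique (hneg : ∀ ω : Ω, (-1 : SL(2, ℤ)) • ω = ω) {m : Ω → R}
    {z₁ z₂ : SL(2, ℤ) → Ω → R} (h1 : IsCm m z₁) (h2 : IsCm m z₂) : z₁ = z₂ :=
  (Pres43.sl2_existsUnique_crossed_fun_sub hneg m).unique h1 h2

theorem exists_isCm (hneg : ∀ ω : Ω, (-1 : SL(2, ℤ)) • ω = ω) (m : Ω → R) :
    ∃ z : SL(2, ℤ) → Ω → R, IsCm m z :=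
  (Pres43.sl2_existsUnique_crossed_fun_sub hneg m).exists

theorem IsCm.add {m₁ m₂ : Ω → R} {z₁ z₂ : SL(2, ℤ) → Ω → R} (h1 : IsCm m₁ z₁)
    (h2 : IsCm m₂ z₂) : IsCm (m₁ + m₂) (z₁ + z₂) := by
  refine ⟨fun g h ω => ?_, fun ω => ?_, ?_⟩
  · simp only [Pi.add_apply, h1.1 g h ω, h2.1 g h ω]; ring
  · simp only [Pi.add_apply, h1.2.1 ω, h2.2.1 ω]; ring
  · rw [Pi.add_apply, h1.2.2, h2.2.2, add_zero]

theorem IsCm.neg {m : Ω → R} {z : SL(2, ℤ) → Ω → R} (h : IsCm m z) : IsCm (-m) (-z) := by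
  refine ⟨fun g h' ω => ?_, fun ω => ?_, ?_⟩
  · simp only [Pi.neg_apply, h.1 g h' ω]; ring
  · simp only [Pi.neg_apply, h.2.1 ω]; ring
  · rw [Pi.neg_apply, h.2.2, neg_zero]

theorem IsCm.zero : IsCm (0 : Ω → R) (0 : SL(2, ℤ) → Ω → R) := by
  refine ⟨fun g h ω => ?_, fun ω => ?_, rfl⟩ <;> simp

variable {π : Ω' → Ω} (hπ : ∀ (g : SL(2, ℤ)) (x : Ω'), π (g • x) = g • π x)
include hπ

/-- `c_{pull m} = pull ∘ c_m`. -/
theorem isCm_pull {m : Ω → R} {z : SL(2, ℤ) → Ω → R} (h : IsCm m z) :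
    IsCm (pull π m) (fun g => pull π (z g)) := by
  refine ⟨fun g h' x => ?_, fun x => ?_, ?_⟩
  · simp only [pull_apply, hπ]; exact h.1 g h' (π x)
  · simp only [pull_apply, hπ]; exact h.2.1 (π x)
  · show pull π (z (S * T)) = 0
    rw [h.2.2]; rfl

/-- `c_{push m'} = push ∘ c_{m'}`. -/
theorem isCm_push [Fintype Ω'] [DecidableEq Ω] {m' : Ω' → R} {z' : SL(2, ℤ) → Ω' → R}
    (h : IsCm m' z') : IsCm (push π m') (fun g => push π (z' g)) := by
  refine ⟨fun g h' y => ?_, fun y => ?_, ?_⟩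
  · have := congrFun (isCoc_push hπ h.isCoc g h') y
    simpa only [Pi.add_apply, act_apply] using this
  · have h1 : z' S = act (S : SL(2, ℤ)) m' - m' := by
      funext x; rw [h.2.1 x]; rfl
    show push π (z' S) y = push π m' ((S : SL(2, ℤ))⁻¹ • y) - push π m' y
    have h2 : push π m' ((S : SL(2, ℤ))⁻¹ • y) = push π (act (S : SL(2, ℤ)) m') y := by
      rw [← act_push hπ]; rfl
    rw [h1, h2]
    simp only [push_apply, Pi.sub_apply, Finset.sum_sub_distrib]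
  · show push π (z' (S * T)) = 0
    rw [h.2.2]
    funext y
    simp [push_apply]

end IsCm

/-! ### subgroups `Γ' ≤ Γ ≤ SL(2,ℤ)` -/

section Subgroups

variable {R : Type*} [CommRing R]

/-- evaluation of a crossed hom at the base point of `SL(2,ℤ) ⧸ Γ`, as an additive hom on `Γ`. -/
def evΓ (Γ : Subgroup SL(2, ℤ)) {z : SL(2, ℤ) → SL(2, ℤ) ⧸ Γ → R} (hz : IsCoc z) :
    Additive Γ →+ R where
  toFun γ := z (γ.toMul : SL(2, ℤ)) (base Γ)
  map_zero' := by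
    show z ((1 : Γ) : SL(2, ℤ)) (base Γ) = 0
    rw [Subgroup.coe_one, hz.map_one]; rfl
  map_add' γ δ := by
    show z ((γ.toMul * δ.toMul : Γ) : SL(2, ℤ)) (base Γ) = _
    rw [Subgroup.coe_mul, hz]
    show z _ (base Γ) + z _ ((γ.toMul : SL(2, ℤ))⁻¹ • base Γ) = _
    have : (γ.toMul : SL(2, ℤ))⁻¹ • base Γ = base Γ := by
      rw [inv_smul_eq_iff, eq_comm, ← mem_iff_smul_base]; exact γ.toMul.2
    rw [this]

@[simp] theorem evΓ_apply (Γ : Subgroup SL(2, ℤ)) {z : SL(2, ℤ) → SL(2, ℤ) ⧸ Γ → R}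
    (hz : IsCoc z) (γ : Γ) : evΓ Γ hz (Additive.ofMul γ) = z (γ : SL(2, ℤ)) (base Γ) := rfl

theorem evΓ_eq_ev (Γ : Subgroup SL(2, ℤ)) {z : SL(2, ℤ) → SL(2, ℤ) ⧸ Γ → R}
    (hz : IsCoc z) (γ : MulAction.stabilizer SL(2, ℤ) (base Γ)) :
    evΓ Γ hz (Additive.ofMul (stabEquiv Γ γ)) = ev (base Γ) z γ := rfl

variable {Γ' Γ : Subgroup SL(2, ℤ)} (hle : Γ' ≤ Γ)

/-- the projection `SL(2,ℤ) ⧸ Γ' → SL(2,ℤ) ⧸ Γ`. -/
def proj : SL(2, ℤ) ⧸ Γ' → SL(2, ℤ) ⧸ Γ := Subgroup.quotientMapOfLE hle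

theorem proj_mk (g : SL(2, ℤ)) :
    proj hle (QuotientGroup.mk g : SL(2, ℤ) ⧸ Γ') = (QuotientGroup.mk g : SL(2, ℤ) ⧸ Γ) := rfl

theorem proj_smul (g : SL(2, ℤ)) (x : SL(2, ℤ) ⧸ Γ') : proj hle (g • x) = g • proj hle x := by
  induction x using QuotientGroup.induction_on with
  | H a => rfl

theorem proj_base : proj hle (base Γ') = base Γ := rfl

/-- **res**: the evaluation of the pulled-back crossed hom is the restriction. -/
theorem evΓ_pull {z : SL(2, ℤ) → SL(2, ℤ) ⧸ Γ → R} (hz : IsCoc z) (γ' : Γ') :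
    evΓ Γ' (isCoc_pull (proj_smul hle) hz) (Additive.ofMul γ') =
      evΓ Γ hz (Additive.ofMul (Subgroup.inclusion hle γ')) := rfl

/-- **cores** (transfer formula): for a right transversal `r` of `Γ'` in `Γ` and any `(σ, c)` with
`r i * γ = c i * r (σ i)`, the sum of the values at the `c i` of the evaluation of `z'` is the
evaluation at `γ` of the pushed-forward crossed hom. -/
theorem sum_evΓ_eq_evΓ_push [Fintype (SL(2, ℤ) ⧸ Γ')] [DecidableEq (SL(2, ℤ) ⧸ Γ)]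
    {z' : SL(2, ℤ) → SL(2, ℤ) ⧸ Γ' → R} (hz' : IsCoc z') {ι : Type*} [Fintype ι]
    (r : ι → SL(2, ℤ)) (hrΓ : ∀ i, r i ∈ Γ) (hr : ∀ g ∈ Γ, ∃! i, g * (r i)⁻¹ ∈ Γ')
    (γ : Γ) (σ : ι ≃ ι) (c : ι → Γ') (h : ∀ i, r i * (γ : SL(2, ℤ)) = (c i : SL(2, ℤ)) * r (σ i)) :
    ∑ i, evΓ Γ' hz' (Additive.ofMul (c i)) =
      evΓ Γ (isCoc_push (proj_smul hle) hz') (Additive.ofMul γ) := by
  have hfib : ∀ i, proj hle ((r i)⁻¹ • base Γ') = proj hle (base Γ') := by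
    intro i
    rw [proj_smul, proj_base, inv_smul_eq_iff, eq_comm, ← mem_iff_smul_base]
    exact hrΓ i
  have hbij : ∀ x, proj hle x = proj hle (base Γ') → ∃! i, (r i)⁻¹ • base Γ' = x := by
    intro x hx
    induction x using QuotientGroup.induction_on with
    | H g =>
      have hg : g ∈ Γ := by
        rw [proj_mk, proj_base] at hx
        have := (QuotientGroup.eq (s := Γ) (a := g) (b := 1)).mp hx
        rw [mul_one] at this
        exact (Subgroup.inv_mem_iff Γ).mp this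
      have key : ∀ i, (r i)⁻¹ • base Γ' = (QuotientGroup.mk g : SL(2, ℤ) ⧸ Γ') ↔
          g⁻¹ * (r i)⁻¹ ∈ Γ' := by
        intro i
        show (QuotientGroup.mk ((r i)⁻¹ * 1) : SL(2, ℤ) ⧸ Γ') = QuotientGroup.mk g ↔ _
        rw [mul_one, QuotientGroup.eq, inv_inv, ← Subgroup.inv_mem_iff, _root_.mul_inv_rev]
      obtain ⟨i, hi, hu⟩ := hr g⁻¹ (Γ.inv_mem hg)
      exact ⟨i, (key i).mpr hi, fun j hj => hu j ((key j).mp hj)⟩
  have hγ : (γ : SL(2, ℤ)) ∈ MulAction.stabilizer SL(2, ℤ) (proj hle (base Γ')) := by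
    rw [proj_base, stabilizer_base]; exact γ.2
  have := sum_ev_eq_ev_push (proj_smul hle) (base Γ') hz' r hfib hbij ⟨(γ : SL(2, ℤ)), hγ⟩ σ
    (fun i => (stabEquiv Γ').symm (c i)) h
  exact this

end Subgroups

end Fermat.Agent.S41.PDInst24
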