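/-
S41 / C7c [PD-DICT] — **adjointness of `res` and `cores`** for helper84's intersection form
`PDCore84.B` on `parabolicHoms ℤ Γ ℤ` (helper24).

`B_res_cores` : for `Γ' ≤ Γ` of finite index in `SL(2,ℤ)`, `-1 ∈ Γ'`:
`B' (res x) y' = B x (cores y')`, where `res x` is ANY element of `parabolicHoms ℤ Γ' ℤ` whose
values are those of `x` on `Γ'`, and `cores y'` is ANY element of `parabolicHoms ℤ Γ ℤ` given by the
transfer formula `γ ↦ ∑ i, y' (c i)` (`r i * γ = c i * r (σ i)`, `r` a right transversal of `Γ'` in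
`Γ`) — i.e. the `heckeHom_apply_of_reps` shape of `Hecke15`.
-/
import Mathlib
import Fermat.Agent.S41.PDCore84.Inst
import Fermat.Agent.S41.PDInst24.Natural

set_option autoImplicit false
set_option linter.unusedSectionVars false

namespace Fermat.Agent.S41.PDInst24

open Matrix ModularGroup Finset
open Fermat.Agent.S41.PDCore84
open ModularCurve.Period
open scoped MatrixGroups

/-! ### coordinates -/

section Coord

variable {Γ : Subgroup SL(2, ℤ)} [Γ.FiniteIndex] (hneg : (-1 : SL(2, ℤ)) ∈ Γ)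

theorem isCoc_of_isCocycle {z : SL(2, ℤ) → SL(2, ℤ) ⧸ Γ → ℤ} (hz : PDCore84.IsCocycle z) :
    CuspSum22.IsCoc z := fun g h => hz g h

theorem isCocycle_of_isCoc {z : SL(2, ℤ) → SL(2, ℤ) ⧸ Γ → ℤ} (hz : CuspSum22.IsCoc z) :
    PDCore84.IsCocycle z := fun g h => hz g h

/-- helper84's `c m` is THE crossed hom of `m`. -/
theorem isCm_c (m : SL(2, ℤ) ⧸ Γ → ℤ) : IsCm m ((sl2Setting Γ hneg).c m) := by
  refine ⟨fun g h ω => ?_, fun ω => ?_, ?_⟩
  · exact congrFun ((sl2Setting Γ hneg).c_isCocycle m g h) ω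
  · exact congrFun ((sl2Setting Γ hneg).c_s m) ω
  · exact (sl2Setting Γ hneg).c_u m

theorem dict_apply (m : SL(2, ℤ) ⧸ Γ → ℤ)
    (hm : (sl2Setting Γ hneg).IsPar ((sl2Setting Γ hneg).Ψ m)) (γ : Γ) :
    (dict hneg m hm : Additive Γ →+ ℤ) (Additive.ofMul γ) =
      (sl2Setting Γ hneg).c m (γ : SL(2, ℤ)) (base Γ) := rfl

theorem dictJ_apply (x : (sl2Setting Γ hneg).X) (γ : Γ) :
    (dictJ hneg x : Additive Γ →+ ℤ) (Additive.ofMul γ) =
      (sl2Setting Γ hneg).spl x (γ : SL(2, ℤ)) (base Γ) := rfl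

/-- an element of `parabolicHoms` with the values of `Ψ m` IS `dict m`. -/
theorem eq_dict_of_apply (m : SL(2, ℤ) ⧸ Γ → ℤ) (y : parabolicHoms ℤ Γ ℤ)
    (h : ∀ γ : Γ, (y : Additive Γ →+ ℤ) (Additive.ofMul γ) =
      (sl2Setting Γ hneg).c m (γ : SL(2, ℤ)) (base Γ)) :
    ∃ hm, y = dict hneg m hm := by
  have hΨ : (sl2Setting Γ hneg).Ψ m =
      (((parEquiv hneg).symm y : (sl2Setting Γ hneg).parSub) :
        Additive (sl2Setting Γ hneg).Γ →+ ℤ) := by
    refine AddMonoidHom.ext fun γ' => ?_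
    obtain ⟨γ, rfl⟩ := Additive.ofMul.surjective γ'
    rw [parEquiv_symm_apply, h]
    rfl
  have hm : (sl2Setting Γ hneg).IsPar ((sl2Setting Γ hneg).Ψ m) := by
    rw [hΨ]; exact ((parEquiv hneg).symm y).2
  refine ⟨hm, ?_⟩
  unfold dict
  have : (⟨(sl2Setting Γ hneg).Ψ m, hm⟩ : (sl2Setting Γ hneg).parSub) = (parEquiv hneg).symm y :=
    Subtype.ext hΨ
  rw [this, LinearEquiv.apply_symm_apply]

end Coord

/-! ### the adjunction -/

section Adj

variable {Γ' Γ : Subgroup SL(2, ℤ)} [Γ'.FiniteIndex] [Γ.FiniteIndex] (hle : Γ' ≤ Γ)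
  (hneg' : (-1 : SL(2, ℤ)) ∈ Γ')

/-- `⟨pull x, m'⟩ = ⟨x, push m'⟩`. -/
theorem ip_pull_left (x : SL(2, ℤ) ⧸ Γ → ℤ) (m' : SL(2, ℤ) ⧸ Γ' → ℤ) :
    ip (pull (proj hle) x) m' = ip x (push (proj hle) m') := by
  unfold ip
  simp only [pull_apply, push_apply, Finset.mul_sum]
  rw [← Finset.sum_fiberwise univ (proj hle) (fun x' => x (proj hle x') * m' x')]
  refine Finset.sum_congr rfl fun y _ => ?_
  refine Finset.sum_congr rfl fun x' hx' => ?_
  rw [(mem_filter.mp hx').2]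

/-- the pull-back of a cycle is a cycle. -/
theorem pull_mem_X {x : SL(2, ℤ) ⧸ Γ → ℤ} (hx : x ∈ (sl2Setting Γ (hle hneg')).X) :
    pull (proj hle) x ∈ (sl2Setting Γ' hneg').X := by
  constructor
  · have h1 := hx.1
    funext ω
    have := congrFun h1 (proj hle ω)
    rw [Pi.add_apply, PDCore84.act_apply, pull_apply, pull_apply, proj_smul]
    exact this
  · have h1 := hx.2
    funext ω
    have := congrFun h1 (proj hle ω)
    rw [Pi.add_apply, Pi.add_apply, PDCore84.act_apply, PDCore84.act_apply, PDCore84.act_apply,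
      pull_apply, pull_apply, pull_apply]
    simp only [proj_smul]
    exact this

/-- the splice cocycle of the pulled-back cycle is the pull-back of the splice cocycle. -/
theorem spl_pull (x : (sl2Setting Γ (hle hneg')).X) :
    (sl2Setting Γ' hneg').spl ⟨pull (proj hle) x, pull_mem_X hle hneg' x.2⟩ =
      fun g => pull (proj hle) ((sl2Setting Γ (hle hneg')).spl x g) := by
  symm
  refine (sl2Setting Γ' hneg').spl_unique _ ?_ ?_ ?_
  · exact isCocycle_of_isCoc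
      (isCoc_pull (proj_smul hle) (isCoc_of_isCocycle ((sl2Setting Γ (hle hneg')).spl_isCocycle x)))
  · show pull (proj hle) ((sl2Setting Γ (hle hneg')).spl x (sl2Setting Γ (hle hneg')).s) = _
    rw [(sl2Setting Γ (hle hneg')).spl_s]
  · show pull (proj hle) ((sl2Setting Γ (hle hneg')).spl x (sl2Setting Γ (hle hneg')).u) = _
    rw [(sl2Setting Γ (hle hneg')).spl_u]

/-- **`res` and `cores` are adjoint for the intersection forms.** -/
theorem B_res_cores (x : parabolicHoms ℤ Γ ℤ) (x' : parabolicHoms ℤ Γ' ℤ)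
    (y' : parabolicHoms ℤ Γ' ℤ) (y : parabolicHoms ℤ Γ ℤ)
    (hres : ∀ γ' : Γ', (x' : Additive Γ' →+ ℤ) (Additive.ofMul γ') =
      (x : Additive Γ →+ ℤ) (Additive.ofMul (Subgroup.inclusion hle γ')))
    {ι : Type*} [Fintype ι] (r : ι → SL(2, ℤ)) (hrΓ : ∀ i, r i ∈ Γ)
    (hr : ∀ g ∈ Γ, ∃! i, g * (r i)⁻¹ ∈ Γ')
    (hcores : ∀ γ : Γ, ∃ (σ : ι ≃ ι) (c : ι → Γ'),
      (∀ i, r i * (γ : SL(2, ℤ)) = (c i : SL(2, ℤ)) * r (σ i)) ∧
        (y : Additive Γ →+ ℤ) (Additive.ofMul γ) =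
          ∑ i, (y' : Additive Γ' →+ ℤ) (Additive.ofMul (c i))) :
    B hneg' x' y' = B (hle hneg') x y := by
  obtain ⟨ξ, rfl⟩ := dictJ_surjective (hle hneg') x
  obtain ⟨m', hm', rfl⟩ := exists_dict hneg' y'
  -- `x' = dictJ (pull ξ)`
  have hx' : x' = dictJ hneg' ⟨pull (proj hle) ξ, pull_mem_X hle hneg' ξ.2⟩ := by
    apply Subtype.ext
    refine AddMonoidHom.ext fun γ'' => ?_
    obtain ⟨γ', rfl⟩ := Additive.ofMul.surjective γ''
    rw [hres, dictJ_apply, dictJ_apply, spl_pull]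
    rfl
  -- `y = dict (push m')`
  obtain ⟨hm, hy⟩ := eq_dict_of_apply (hle hneg') (push (proj hle) m') y (by
    intro γ
    obtain ⟨σ, c, h, hval⟩ := hcores γ
    rw [hval]
    have hz' := isCm_c hneg' m'
    have hz : IsCm (push (proj hle) m') (fun g => push (proj hle) ((sl2Setting Γ' hneg').c m' g)) :=
      isCm_push (proj_smul hle) hz'
    have h2 : (sl2Setting Γ (hle hneg')).c (push (proj hle) m') =
        fun g => push (proj hle) ((sl2Setting Γ' hneg').c m' g) :=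
      IsCm.unique (fun ω => neg_one_smul (hle hneg') ω) (isCm_c (hle hneg') _) hz
    rw [h2]
    have := sum_evΓ_eq_evΓ_push hle hz'.isCoc r hrΓ hr γ σ c h
    simp only [evΓ_apply] at this
    exact this)
  rw [hx', hy, B_dictJ_dict, B_dictJ_dict]
  exact ip_pull_left hle _ _

end Adj

end Fermat.Agent.S41.PDInst24
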