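/-
S41 / C8c [TRANSPOSE] (helper24): the CONCRETE adjunction (ADJ, i = 1) for the degeneracy maps of
`Hecke15` / `New63`:

`B_{Nq} (degRes φ) ψ' = B_N φ (degCores ψ')`

for helper84's intersection forms `PDCore84.B` on `parabolicHoms ℤ (Gamma0 M) ℤ`, `M = N, N q`.
-/
import Mathlib
import Fermat.Agent.S41.Hecke15.Degen
import Fermat.Agent.S41.New63.Cores
import Fermat.Agent.S41.PDInst24.BResCores

set_option autoImplicit false
set_option linter.unusedSectionVars false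

namespace Fermat.Agent.S41.PDInst24

open Matrix ModularGroup Finset CongruenceSubgroup
open Fermat.Agent.S41.PDCore84 Fermat.Agent.S41.Hecke15 Fermat.Agent.S41.New63
open ModularCurve.Period
open scoped MatrixGroups OnePoint

section

variable (N q : ℕ) [hqp : Fact q.Prime] (x y : ℤ) (hxy : (q : ℤ) * x - N * y = 1)

/-- the right transversal of `Γ₀(N q)` in `Γ₀(N)` underlying `New63.coresFam`, in `SL(2,ℤ)`. -/
noncomputable def coresRep (k : OnePoint (ZMod q)) : SL(2, ℤ) :=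
  (coresElt N q x y hxy k : SL(2, ℤ))

theorem coresRep_mem (k : OnePoint (ZMod q)) : coresRep N q x y hxy k ∈ Gamma0 N :=
  (coresElt N q x y hxy k).2

@[simp] theorem coresRep_infty : coresRep N q x y hxy ∞ = 1 := rfl

@[simp] theorem coresRep_coe (j : ZMod q) :
    coresRep N q x y hxy (j : OnePoint (ZMod q)) = rMat N q x y hxy (j.val : ℤ) := rfl

/-- `coresRep` is a right transversal of `Γ₀(N q)` in `Γ₀(N)`. -/
theorem coresRep_transversal (hN : N ≠ 0) (hqN : ¬ q ∣ N) (g : SL(2, ℤ)) (hg : g ∈ Gamma0 N) :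
    ∃! k, g * (coresRep N q x y hxy k)⁻¹ ∈ Gamma0 (N * q) := by
  have key : ∀ k k' : OnePoint (ZMod q),
      coresRep N q x y hxy k * (coresRep N q x y hxy k')⁻¹ ∈ Gamma0 (N * q) → k = k' := by
    intro k k' h
    induction k using OnePoint.rec with
    | infty =>
      induction k' using OnePoint.rec with
      | infty => rfl
      | coe j' =>
        exfalso
        apply rMat_not_mem N q x y hxy hN (j'.val : ℤ)
        rw [coresRep_infty, coresRep_coe, one_mul] at h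
        exact (Subgroup.inv_mem_iff _).mp h
    | coe j =>
      induction k' using OnePoint.rec with
      | infty =>
        exfalso
        apply rMat_not_mem N q x y hxy hN (j.val : ℤ)
        rw [coresRep_infty, coresRep_coe, inv_one, mul_one] at h
        exact h
      | coe j' =>
        rw [coresRep_coe, coresRep_coe] at h
        rw [rMat_coset_inj N q x y hxy hqN j j' h]
  have hex : ∃ k, g * (coresRep N q x y hxy k)⁻¹ ∈ Gamma0 (N * q) := by
    rcases exists_coset_rep N q x y hxy hqN g hg with h | ⟨j, hj⟩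
    · exact ⟨∞, by rw [coresRep_infty, inv_one, mul_one]; exact h⟩
    · exact ⟨(j : OnePoint (ZMod q)), by rw [coresRep_coe]; exact hj⟩
  obtain ⟨k, hk⟩ := hex
  refine ⟨k, hk, fun k' hk' => ?_⟩
  apply key
  have : coresRep N q x y hxy k' * (coresRep N q x y hxy k)⁻¹ =
      (g * (coresRep N q x y hxy k')⁻¹)⁻¹ * (g * (coresRep N q x y hxy k)⁻¹) := by group
  rw [this]
  exact (Gamma0 (N * q)).mul_mem ((Gamma0 (N * q)).inv_mem hk') hk

variable [NeZero N] [NeZero (N * q)]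

/-- **(ADJ), i = 1, concrete**: `degRes` and `degCores` are adjoint for the intersection forms. -/
theorem B_degRes_degCores (hN : N ≠ 0) (hqN : ¬ q ∣ N)
    (φ : Additive (Gamma0 N) →+ ℤ) (hφ : φ ∈ parabolicHoms ℤ (Gamma0 N) ℤ)
    (ψ' : Additive (Gamma0 (N * q)) →+ ℤ) (hψ' : ψ' ∈ parabolicHoms ℤ (Gamma0 (N * q)) ℤ)
    (h1 : degRes (Dvd.intro q rfl) ℤ φ ∈ parabolicHoms ℤ (Gamma0 (N * q)) ℤ)
    (h2 : degCores N q x y hxy hN hqN ψ' ∈ parabolicHoms ℤ (Gamma0 N) ℤ) :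
    B (PDInst51.neg_one_mem_Gamma0_51 (N * q)) ⟨degRes (Dvd.intro q rfl) ℤ φ, h1⟩ ⟨ψ', hψ'⟩ =
      B (PDInst51.neg_one_mem_Gamma0_51 N) ⟨φ, hφ⟩ ⟨degCores N q x y hxy hN hqN ψ', h2⟩ := by
  have : NeZero q := ⟨hqp.out.ne_zero⟩
  refine B_res_cores (Gamma0_le_of_dvd (Dvd.intro q rfl)) (PDInst51.neg_one_mem_Gamma0_51 (N * q))
    ⟨φ, hφ⟩ ⟨degRes (Dvd.intro q rfl) ℤ φ, h1⟩ ⟨ψ', hψ'⟩ ⟨degCores N q x y hxy hN hqN ψ', h2⟩
    ?_ (coresRep N q x y hxy) (coresRep_mem N q x y hxy)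
    (coresRep_transversal N q x y hxy hN hqN) ?_
  · intro γ'
    exact degRes_apply (Dvd.intro q rfl) φ γ'
  · intro γ
    obtain ⟨σ, c, h⟩ := coresFam_isStable N q x y hxy hN hqN γ
    refine ⟨σ, c, fun k => ?_, ?_⟩
    · -- descend the `GL(2,ℝ)` identity to `SL(2,ℤ)`
      have hk := h k
      rw [coresFam_eq, coresFam_eq] at hk
      have hk' : eGL63 N (coresElt N q x y hxy k * γ) =
          eGL63 N (⟨(c k : SL(2, ℤ)), Gamma0_mul_le N q _ (c k).2⟩ *
            coresElt N q x y hxy (σ k)) := by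
        rw [map_mul, map_mul, hk]
        rfl
      have := eGL63_injective N hk'
      exact congrArg (fun g : Gamma0 N => (g : SL(2, ℤ))) this
    · exact heckeHom_apply_of_reps _ _ _ _ _ ψ' γ σ c h

theorem degCores_mem_parabolicHoms (hN : N ≠ 0) (hqN : ¬ q ∣ N)
    {ψ' : Additive (Gamma0 (N * q)) →+ ℤ} (hψ' : ψ' ∈ parabolicHoms ℤ (Gamma0 (N * q)) ℤ) :
    degCores N q x y hxy hN hqN ψ' ∈ parabolicHoms ℤ (Gamma0 N) ℤ :=
  heckeHom_mem_parabolicHoms ℤ (coresFam N q x y hxy) (coresFam_isStable N q x y hxy hN hqN) hψ'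

/-- the same with the memberships discharged. -/
theorem B_degRes_degCores' (hN : N ≠ 0) (hqN : ¬ q ∣ N)
    (φ : Additive (Gamma0 N) →+ ℤ) (hφ : φ ∈ parabolicHoms ℤ (Gamma0 N) ℤ)
    (ψ' : Additive (Gamma0 (N * q)) →+ ℤ) (hψ' : ψ' ∈ parabolicHoms ℤ (Gamma0 (N * q)) ℤ) :
    B (PDInst51.neg_one_mem_Gamma0_51 (N * q))
        ⟨degRes (Dvd.intro q rfl) ℤ φ, degRes_mem_parabolicHoms ℤ (Dvd.intro q rfl) hφ⟩ ⟨ψ', hψ'⟩ =
      B (PDInst51.neg_one_mem_Gamma0_51 N) ⟨φ, hφ⟩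
        ⟨degCores N q x y hxy hN hqN ψ', degCores_mem_parabolicHoms N q x y hxy hN hqN hψ'⟩ :=
  B_degRes_degCores N q x y hxy hN hqN φ hφ ψ' hψ' _ _

end

end Fermat.Agent.S41.PDInst24
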