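/-
S41 / C8c [TRANSPOSE] (helper24): the Atkin–Lehner isometry and its consequences for helper84's
intersection forms `PDCore84.B` on `parabolicHoms ℤ (Gamma0 M) ℤ`:

* `conjEquivOfIntertwine` : the `MulEquiv` `Γ₁ ≃* Γ₂` attached to an integer matrix `α` of nonzero
  determinant intertwining `Γ₁` and `Γ₂` (`α γ = c α`), as required by `PDComm92.B_conj`;
* `B_WOp_WOp`  (W-isometry)  : `B_{Nq} (W a) (W b) = B_{Nq} a b`;
* `B_degConj_degCoresW` (ADJ, i = 2) : `B_{Nq} (degConj φ) ψ' = B_N φ (degCores (W ψ'))`;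
* `B_TX_selfadjoint` (SELF) : `B_N (T_q φ) ψ = B_N φ (T_q ψ)` for every prime `q ∤ N`.
-/
import Mathlib
import Fermat.Agent.S41.PDComm92.BConj
import Fermat.Agent.S41.New63.BetaAlpha
import Fermat.Agent.S41.PDInst24.AdjDegen

set_option autoImplicit false
set_option linter.unusedSectionVars false

namespace Fermat.Agent.S41.PDInst24

open Matrix ModularGroup Finset CongruenceSubgroup
open Fermat.Agent.S41.PDCore84 Fermat.Agent.S41.Hecke15 Fermat.Agent.S41.New63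
open Fermat.Agent.S16.HeckeHom24
open ModularCurve.Period
open scoped MatrixGroups

/-! ### (W0) the `MulEquiv` of an intertwining integer matrix -/

section ConjEquiv

theorem mat_left_cancel {α A B : Matrix (Fin 2) (Fin 2) ℤ} (hα : α.det ≠ 0)
    (h : α * A = α * B) : A = B := by
  have h1 := congrArg (fun M => α.adjugate * M) h
  simp only [← Matrix.mul_assoc, Matrix.adjugate_mul, Matrix.smul_mul, Matrix.one_mul] at h1
  exact smul_right_injective _ hα h1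

theorem mat_right_cancel {α A B : Matrix (Fin 2) (Fin 2) ℤ} (hα : α.det ≠ 0)
    (h : A * α = B * α) : A = B := by
  have h1 := congrArg (fun M => M * α.adjugate) h
  simp only [Matrix.mul_assoc, Matrix.mul_adjugate, Matrix.mul_smul, Matrix.mul_one] at h1
  exact smul_right_injective _ hα h1

variable {Γ₁ Γ₂ : Subgroup SL(2, ℤ)}

theorem sub_ext_of_mat {Γ : Subgroup SL(2, ℤ)} {a b : Γ}
    (h : ((a : SL(2, ℤ)) : Matrix (Fin 2) (Fin 2) ℤ) = ((b : SL(2, ℤ)) : Matrix (Fin 2) (Fin 2) ℤ)) :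
    a = b :=
  Subtype.ext (Subtype.ext h)

/-- the isomorphism `Γ₁ ≃* Γ₂` given by an intertwining integer matrix of nonzero determinant. -/
noncomputable def conjEquivOfIntertwine (α : Matrix (Fin 2) (Fin 2) ℤ) (hα : α.det ≠ 0)
    (h12 : ∀ γ : Γ₁, ∃ c : Γ₂, α * ((γ : SL(2, ℤ)) : Matrix (Fin 2) (Fin 2) ℤ)
      = ((c : SL(2, ℤ)) : Matrix (Fin 2) (Fin 2) ℤ) * α)
    (h21 : ∀ c : Γ₂, ∃ γ : Γ₁, α * ((γ : SL(2, ℤ)) : Matrix (Fin 2) (Fin 2) ℤ)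
      = ((c : SL(2, ℤ)) : Matrix (Fin 2) (Fin 2) ℤ) * α) : Γ₁ ≃* Γ₂ where
  toFun γ := (h12 γ).choose
  invFun c := (h21 c).choose
  left_inv γ := by
    apply sub_ext_of_mat
    apply mat_left_cancel hα
    rw [(h21 _).choose_spec, (h12 γ).choose_spec]
  right_inv c := by
    apply sub_ext_of_mat
    apply mat_right_cancel hα
    rw [← (h12 _).choose_spec, (h21 c).choose_spec]
  map_mul' γ₁ γ₂ := by
    have e12 := (h12 (γ₁ * γ₂)).choose_spec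
    have e1 := (h12 γ₁).choose_spec
    have e2 := (h12 γ₂).choose_spec
    generalize (h12 (γ₁ * γ₂)).choose = c12 at e12 ⊢
    generalize (h12 γ₁).choose = c1 at e1 ⊢
    generalize (h12 γ₂).choose = c2 at e2 ⊢
    apply sub_ext_of_mat
    apply mat_right_cancel hα
    calc ((c12 : SL(2, ℤ)) : Matrix (Fin 2) (Fin 2) ℤ) * α
        = α * (((γ₁ * γ₂ : Γ₁) : SL(2, ℤ)) : Matrix (Fin 2) (Fin 2) ℤ) := e12.symm
      _ = α * ((γ₁ : SL(2, ℤ)) : Matrix (Fin 2) (Fin 2) ℤ) *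
            ((γ₂ : SL(2, ℤ)) : Matrix (Fin 2) (Fin 2) ℤ) := by
          rw [Subgroup.coe_mul, Matrix.SpecialLinearGroup.coe_mul, Matrix.mul_assoc]
      _ = ((c1 : SL(2, ℤ)) : Matrix (Fin 2) (Fin 2) ℤ) *
            (α * ((γ₂ : SL(2, ℤ)) : Matrix (Fin 2) (Fin 2) ℤ)) := by
          rw [e1, Matrix.mul_assoc]
      _ = (((c1 * c2 : Γ₂) : SL(2, ℤ)) : Matrix (Fin 2) (Fin 2) ℤ) * α := by
          rw [e2, Subgroup.coe_mul, Matrix.SpecialLinearGroup.coe_mul, Matrix.mul_assoc]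

theorem conjEquivOfIntertwine_spec (α : Matrix (Fin 2) (Fin 2) ℤ) (hα : α.det ≠ 0)
    (h12 : ∀ γ : Γ₁, ∃ c : Γ₂, α * ((γ : SL(2, ℤ)) : Matrix (Fin 2) (Fin 2) ℤ)
      = ((c : SL(2, ℤ)) : Matrix (Fin 2) (Fin 2) ℤ) * α)
    (h21 : ∀ c : Γ₂, ∃ γ : Γ₁, α * ((γ : SL(2, ℤ)) : Matrix (Fin 2) (Fin 2) ℤ)
      = ((c : SL(2, ℤ)) : Matrix (Fin 2) (Fin 2) ℤ) * α) (γ : Γ₁) :
    α * ((γ : SL(2, ℤ)) : Matrix (Fin 2) (Fin 2) ℤ)
      = (((conjEquivOfIntertwine α hα h12 h21 γ : Γ₂) : SL(2, ℤ)) :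
          Matrix (Fin 2) (Fin 2) ℤ) * α :=
  (h12 γ).choose_spec

end ConjEquiv

/-! ### a group-theoretic lemma: surjectivity of conjugation by `W` from `W² = central · γ₀` -/

theorem conj_surj_aux {G : Type*} [Group G] {W Z G0 a a' : G} (hZ : ∀ g, Z * g = g * Z)
    (hsq : W * W = Z * G0) (h : W * a = a' * W) : W * (G0⁻¹ * a' * G0) = a * W := by
  have hG0 : G0 = Z⁻¹ * (W * W) := by rw [hsq, inv_mul_cancel_left]
  have ha' : a' = W * a * W⁻¹ := by rw [h, mul_inv_cancel_right]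
  rw [hG0, ha']
  calc W * ((Z⁻¹ * (W * W))⁻¹ * (W * a * W⁻¹) * (Z⁻¹ * (W * W)))
      = W⁻¹ * (Z * (W * a * W⁻¹)) * Z⁻¹ * W * W := by group
    _ = W⁻¹ * ((W * a * W⁻¹) * Z) * Z⁻¹ * W * W := by rw [hZ]
    _ = a * W := by group

/-! ### (W1) the Atkin–Lehner isometry -/

theorem eGL63_coe (M : ℕ) (γ : Gamma0 M) :
    ((eGL63 M γ : GL (Fin 2) ℝ) : Matrix (Fin 2) (Fin 2) ℝ)
      = ((γ : SL(2, ℤ)) : Matrix (Fin 2) (Fin 2) ℤ).map (Int.castRingHom ℝ) :=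
  iota_coe γ

/-- `B` only depends on the underlying homs. -/
theorem B_congr {Γ : Subgroup SL(2, ℤ)} [Γ.FiniteIndex] (hneg : (-1 : SL(2, ℤ)) ∈ Γ)
    {f f' g g' : Additive Γ →+ ℤ} (hf : f ∈ parabolicHoms ℤ Γ ℤ) (hf' : f' ∈ parabolicHoms ℤ Γ ℤ)
    (hg : g ∈ parabolicHoms ℤ Γ ℤ) (hg' : g' ∈ parabolicHoms ℤ Γ ℤ) (e1 : f = f') (e2 : g = g') :
    B hneg ⟨f, hf⟩ ⟨g, hg⟩ = B hneg ⟨f', hf'⟩ ⟨g', hg'⟩ := by
  subst e1; subst e2; rfl

section AL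

variable (N q : ℕ) [hqp : Fact q.Prime] (x y : ℤ) (hxy : (q : ℤ) * x - N * y = 1)

/-- the integral Atkin–Lehner matrix `[[q x, y],[N q, q]]`. -/
def wInt : Matrix (Fin 2) (Fin 2) ℤ := !![(q : ℤ) * x, y; (N : ℤ) * q, (q : ℤ)]

include hxy

theorem wInt_det : (wInt N q x y).det = q := by
  rw [wInt, Matrix.det_fin_two_of]
  linear_combination (q : ℤ) * hxy

theorem wAL_coe :
    ((wAL N q x y (q_ne_zero63 q) hxy : GL (Fin 2) ℝ) : Matrix (Fin 2) (Fin 2) ℝ)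
      = (wInt N q x y).map (Int.castRingHom ℝ) := by
  rw [val_wAL]
  ext i j
  fin_cases i <;> fin_cases j <;> simp [wInt]

/-- GL-level intertwining ⇔ integer-level intertwining. -/
theorem wInt_intertwine_iff (γ c : Gamma0 (N * q)) :
    wAL N q x y (q_ne_zero63 q) hxy * eGL63 (N * q) γ
        = eGL63 (N * q) c * wAL N q x y (q_ne_zero63 q) hxy ↔
      wInt N q x y * ((γ : SL(2, ℤ)) : Matrix (Fin 2) (Fin 2) ℤ)
        = ((c : SL(2, ℤ)) : Matrix (Fin 2) (Fin 2) ℤ) * wInt N q x y := by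
  constructor
  · intro h
    have h1 : ((wAL N q x y (q_ne_zero63 q) hxy * eGL63 (N * q) γ : GL (Fin 2) ℝ) :
        Matrix (Fin 2) (Fin 2) ℝ) = ((eGL63 (N * q) c * wAL N q x y (q_ne_zero63 q) hxy :
          GL (Fin 2) ℝ) : Matrix (Fin 2) (Fin 2) ℝ) := congrArg _ h
    rw [Units.val_mul, Units.val_mul, wAL_coe, eGL63_coe, eGL63_coe, ← Matrix.map_mul,
      ← Matrix.map_mul] at h1
    exact Matrix.map_injective (Int.cast_injective (α := ℝ)) h1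
  · intro h
    exact gl_mul_eq_of_int (wAL_coe N q x y hxy) (eGL63_coe _ γ) (eGL63_coe _ c)
      (wAL_coe N q x y hxy) h

theorem wInt_h12 (γ : Gamma0 (N * q)) :
    ∃ c : Gamma0 (N * q), wInt N q x y * ((γ : SL(2, ℤ)) : Matrix (Fin 2) (Fin 2) ℤ)
      = ((c : SL(2, ℤ)) : Matrix (Fin 2) (Fin 2) ℤ) * wInt N q x y := by
  obtain ⟨c, hc⟩ := exists_wAL_conj N q x y hxy γ
  exact ⟨c, (wInt_intertwine_iff N q x y hxy γ c).mp hc⟩

theorem wInt_h21 (c : Gamma0 (N * q)) :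
    ∃ γ : Gamma0 (N * q), wInt N q x y * ((γ : SL(2, ℤ)) : Matrix (Fin 2) (Fin 2) ℤ)
      = ((c : SL(2, ℤ)) : Matrix (Fin 2) (Fin 2) ℤ) * wInt N q x y := by
  obtain ⟨c', hc'⟩ := exists_wAL_conj N q x y hxy c
  obtain ⟨γ₀, h10, hsq⟩ := wAL_sq N q x y (q_ne_zero63 q) hxy
  have hγ₀ : γ₀ ∈ Gamma0 (N * q) := by
    rw [mem_Gamma0_iff_dvd, h10]
    exact ⟨x + 1, by push_cast; ring⟩
  let g0 : Gamma0 (N * q) := ⟨γ₀, hγ₀⟩
  refine ⟨g0⁻¹ * c' * g0, (wInt_intertwine_iff N q x y hxy _ c).mp ?_⟩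
  rw [map_mul, map_mul, map_inv]
  exact conj_surj_aux (scalarGL_central (q : ℝ) (by exact_mod_cast (q_ne_zero63 q))) hsq hc'

/-- conjugation by the Atkin–Lehner matrix, as an automorphism of `Γ₀(N q)`. -/
noncomputable def wEquiv : Gamma0 (N * q) ≃* Gamma0 (N * q) :=
  conjEquivOfIntertwine (wInt N q x y)
    (by rw [wInt_det N q x y hxy]; exact_mod_cast q_ne_zero63 q)
    (wInt_h12 N q x y hxy) (wInt_h21 N q x y hxy)

theorem wEquiv_spec (γ : Gamma0 (N * q)) :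
    wInt N q x y * ((γ : SL(2, ℤ)) : Matrix (Fin 2) (Fin 2) ℤ)
      = (((wEquiv N q x y hxy γ : Gamma0 (N * q)) : SL(2, ℤ)) :
          Matrix (Fin 2) (Fin 2) ℤ) * wInt N q x y :=
  conjEquivOfIntertwine_spec _ _ _ _ γ

theorem WOp_apply_wEquiv {A : Type*} [AddCommGroup A] (φ : Additive (Gamma0 (N * q)) →+ A)
    (γ : Gamma0 (N * q)) :
    WOp N q x y hxy φ (Additive.ofMul γ) = φ (Additive.ofMul (wEquiv N q x y hxy γ)) :=
  WOp_apply N q x y hxy φ γ _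
    ((wInt_intertwine_iff N q x y hxy γ _).mpr (wEquiv_spec N q x y hxy γ))

variable [NeZero (N * q)]

theorem WOp_mem_parabolicHoms {a : Additive (Gamma0 (N * q)) →+ ℤ}
    (ha : a ∈ parabolicHoms ℤ (Gamma0 (N * q)) ℤ) :
    WOp N q x y hxy a ∈ parabolicHoms ℤ (Gamma0 (N * q)) ℤ :=
  heckeHom_mem_parabolicHoms ℤ _ (wAL_isStable N q x y hxy) ha

/-- **(W1) the Atkin–Lehner involution is an isometry of the intersection form.** -/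
theorem B_WOp_WOp (a b : Additive (Gamma0 (N * q)) →+ ℤ)
    (ha : a ∈ parabolicHoms ℤ (Gamma0 (N * q)) ℤ) (hb : b ∈ parabolicHoms ℤ (Gamma0 (N * q)) ℤ)
    (hWa : WOp N q x y hxy a ∈ parabolicHoms ℤ (Gamma0 (N * q)) ℤ)
    (hWb : WOp N q x y hxy b ∈ parabolicHoms ℤ (Gamma0 (N * q)) ℤ) :
    B (PDInst51.neg_one_mem_Gamma0_51 (N * q)) ⟨WOp N q x y hxy a, hWa⟩ ⟨WOp N q x y hxy b, hWb⟩ =
      B (PDInst51.neg_one_mem_Gamma0_51 (N * q)) ⟨a, ha⟩ ⟨b, hb⟩ := by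
  refine PDComm92.B_conj _ _ (wEquiv N q x y hxy) (wInt N q x y) ?_ (wEquiv_spec N q x y hxy)
    _ _ _ _ (fun γ => WOp_apply_wEquiv N q x y hxy a γ) (fun γ => WOp_apply_wEquiv N q x y hxy b γ)
  rw [wInt_det N q x y hxy]
  exact_mod_cast hqp.out.pos

variable [NeZero N]

/-- **(ADJ, i = 2)**: `degConj` and `degCores ∘ W` are adjoint. -/
theorem B_degConj_degCoresW (hN : N ≠ 0) (hqN : ¬ q ∣ N)
    (φ : Additive (Gamma0 N) →+ ℤ) (hφ : φ ∈ parabolicHoms ℤ (Gamma0 N) ℤ)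
    (ψ' : Additive (Gamma0 (N * q)) →+ ℤ) (hψ' : ψ' ∈ parabolicHoms ℤ (Gamma0 (N * q)) ℤ)
    (h1 : degConj (q_pos63 q) ℤ φ ∈ parabolicHoms ℤ (Gamma0 (N * q)) ℤ)
    (h2 : degCores N q x y hxy hN hqN (WOp N q x y hxy ψ') ∈ parabolicHoms ℤ (Gamma0 N) ℤ) :
    B (PDInst51.neg_one_mem_Gamma0_51 (N * q)) ⟨degConj (q_pos63 q) ℤ φ, h1⟩ ⟨ψ', hψ'⟩ =
      B (PDInst51.neg_one_mem_Gamma0_51 N) ⟨φ, hφ⟩
        ⟨degCores N q x y hxy hN hqN (WOp N q x y hxy ψ'), h2⟩ := by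
  have hres : Hecke15.degRes (Dvd.intro q rfl) ℤ φ ∈ parabolicHoms ℤ (Gamma0 (N * q)) ℤ :=
    degRes_mem_parabolicHoms ℤ (Dvd.intro q rfl) hφ
  have hWψ : WOp N q x y hxy ψ' ∈ parabolicHoms ℤ (Gamma0 (N * q)) ℤ :=
    WOp_mem_parabolicHoms N q x y hxy hψ'
  have hWres : WOp N q x y hxy (Hecke15.degRes (Dvd.intro q rfl) ℤ φ) ∈
      parabolicHoms ℤ (Gamma0 (N * q)) ℤ := WOp_mem_parabolicHoms N q x y hxy hres
  have hWWψ : WOp N q x y hxy (WOp N q x y hxy ψ') ∈ parabolicHoms ℤ (Gamma0 (N * q)) ℤ :=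
    WOp_mem_parabolicHoms N q x y hxy hWψ
  calc B (PDInst51.neg_one_mem_Gamma0_51 (N * q)) ⟨degConj (q_pos63 q) ℤ φ, h1⟩ ⟨ψ', hψ'⟩
      = B (PDInst51.neg_one_mem_Gamma0_51 (N * q))
          ⟨WOp N q x y hxy (Hecke15.degRes (Dvd.intro q rfl) ℤ φ), hWres⟩
          ⟨WOp N q x y hxy (WOp N q x y hxy ψ'), hWWψ⟩ :=
        B_congr _ _ _ _ _ (WOp_degRes N q x y hxy φ).symm (WOp_WOp N q x y hxy ψ').symm
    _ = B (PDInst51.neg_one_mem_Gamma0_51 (N * q))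
          ⟨Hecke15.degRes (Dvd.intro q rfl) ℤ φ, hres⟩ ⟨WOp N q x y hxy ψ', hWψ⟩ :=
        B_WOp_WOp N q x y hxy _ _ hres hWψ _ _
    _ = _ := B_degRes_degCores N q x y hxy hN hqN φ hφ _ hWψ _ _

/-- **(SELF)**: `T_q` is self-adjoint for the intersection form on `parabolicHoms ℤ (Gamma0 N) ℤ`,
for every prime `q ∤ N`. -/
theorem B_TX_selfadjoint (hN : N ≠ 0) (hqN : ¬ q ∣ N)
    (φ ψ : Additive (Gamma0 N) →+ ℤ) (hφ : φ ∈ parabolicHoms ℤ (Gamma0 N) ℤ)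
    (hψ : ψ ∈ parabolicHoms ℤ (Gamma0 N) ℤ)
    (h1 : TX N ℤ q φ ∈ parabolicHoms ℤ (Gamma0 N) ℤ)
    (h2 : TX N ℤ q ψ ∈ parabolicHoms ℤ (Gamma0 N) ℤ) :
    B (PDInst51.neg_one_mem_Gamma0_51 N) ⟨TX N ℤ q φ, h1⟩ ⟨ψ, hψ⟩ =
      B (PDInst51.neg_one_mem_Gamma0_51 N) ⟨φ, hφ⟩ ⟨TX N ℤ q ψ, h2⟩ := by
  have hresφ := degRes_mem_parabolicHoms ℤ (Dvd.intro q rfl : N ∣ N * q) hφ
  have hresψ := degRes_mem_parabolicHoms ℤ (Dvd.intro q rfl : N ∣ N * q) hψ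
  have hconjφ := degConj_mem_parabolicHoms ℤ (q_pos63 q) hφ
  have hconjψ := degConj_mem_parabolicHoms ℤ (q_pos63 q) hψ
  have hccφ := degCores_mem_parabolicHoms N q x y hxy hN hqN hconjφ
  have hccψ := degCores_mem_parabolicHoms N q x y hxy hN hqN hconjψ
  -- left side
  have hL : B (PDInst51.neg_one_mem_Gamma0_51 N) ⟨TX N ℤ q φ, h1⟩ ⟨ψ, hψ⟩ =
      B (PDInst51.neg_one_mem_Gamma0_51 (N * q)) ⟨degConj (q_pos63 q) ℤ φ, hconjφ⟩
        ⟨Hecke15.degRes (Dvd.intro q rfl) ℤ ψ, hresψ⟩ := by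
    rw [B_congr (PDInst51.neg_one_mem_Gamma0_51 N) h1 hccφ hψ hψ
      (degCores_degConj N q x y hxy hN hqN φ).symm rfl, B_antisymm,
      ← B_degRes_degCores N q x y hxy hN hqN ψ hψ _ hconjφ hresψ hccφ, ← B_antisymm]
  -- right side
  have hR : B (PDInst51.neg_one_mem_Gamma0_51 N) ⟨φ, hφ⟩ ⟨TX N ℤ q ψ, h2⟩ =
      B (PDInst51.neg_one_mem_Gamma0_51 (N * q)) ⟨Hecke15.degRes (Dvd.intro q rfl) ℤ φ, hresφ⟩
        ⟨degConj (q_pos63 q) ℤ ψ, hconjψ⟩ := by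
    rw [B_congr (PDInst51.neg_one_mem_Gamma0_51 N) hφ hφ h2 hccψ rfl
      (degCores_degConj N q x y hxy hN hqN ψ).symm,
      ← B_degRes_degCores N q x y hxy hN hqN φ hφ _ hconjψ hresφ hccψ]
  rw [hL, hR]
  have hW1 := WOp_mem_parabolicHoms N q x y hxy hresφ
  have hW2 := WOp_mem_parabolicHoms N q x y hxy hconjψ
  rw [B_congr (PDInst51.neg_one_mem_Gamma0_51 (N * q)) hconjφ hW1 hresψ hW2
    (WOp_degRes N q x y hxy φ).symm (WOp_degConj N q x y hxy ψ).symm]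
  exact B_WOp_WOp N q x y hxy _ _ hresφ hconjψ _ _

end AL

end Fermat.Agent.S41.PDInst24
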