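/-
S41 / C7c [PD-DICT] — concrete instance (helper24), part (I3):
parabolic elements of `Γ = Stab(ω₀)` which are conjugate (in the ambient group) to a power of `τ`
are `Γ`-conjugate to a power of a cusp generator `C.γ i` of a `CuspSum22.CuspSys`;
consequence for `SL(2,ℤ)`: the Prelude parabolic condition = vanishing on the cusp generators.
-/
import Mathlib
import Fermat.Agent.S41.CuspSum22.Core
import Fermat.Agent.S41.PDInst24.Basic

set_option autoImplicit false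

namespace Fermat.Agent.S41.PDInst24

open Fermat.Agent.S41.CuspSum22

section Generic

variable {G : Type*} [Group G] {Ω : Type*} [MulAction G Ω]

theorem zpow_smul_eq_of_smul_eq {g : G} {b : Ω} (h : g • b = b) (q : ℤ) : g ^ q • b = b := by
  have : g ∈ MulAction.stabilizer G b := MulAction.mem_stabilizer_iff.mpr h
  exact MulAction.mem_stabilizer_iff.mp (Subgroup.zpow_mem _ this q)

/-- in a cusp system the width `w i` is the exact period of the base point of the `i`-th orbit. -/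
theorem CuspSys_dvd_of_zpow_smul_eq {τ : G} {ω₀ : Ω} (C : CuspSys τ ω₀) (i : C.I)
    (hw : 0 < C.w i) (m : ℤ) (h : τ ^ m • ((C.h i)⁻¹ • ω₀) = (C.h i)⁻¹ • ω₀) :
    (C.w i : ℤ) ∣ m := by
  set b := (C.h i)⁻¹ • ω₀ with hb
  set w := C.w i with hwdef
  have hwz : (0 : ℤ) < w := by exact_mod_cast hw
  have hr0 : 0 ≤ m % (w : ℤ) := Int.emod_nonneg _ hwz.ne'
  have hr1 : m % (w : ℤ) < w := Int.emod_lt_of_pos _ hwz
  have hfixw : τ ^ (w : ℤ) • b = b := by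
    rw [zpow_natCast]; exact C.fix i
  have hdecomp : m = m % (w : ℤ) + (w : ℤ) * (m / (w : ℤ)) := (Int.emod_add_mul_ediv m w).symm
  have hr : τ ^ (m % (w : ℤ)) • b = b := by
    have h1 : τ ^ m • b = τ ^ (m % (w : ℤ)) • (τ ^ ((w : ℤ) * (m / (w : ℤ))) • b) := by
      rw [← mul_smul (τ ^ (m % (w : ℤ))) (τ ^ ((w : ℤ) * (m / (w : ℤ)))) b, ← zpow_add, ← hdecomp]
    rw [zpow_mul, zpow_smul_eq_of_smul_eq hfixw] at h1
    rw [← h1]; exact h
  -- the natural number `r`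
  obtain ⟨r, hrr⟩ := Int.eq_ofNat_of_zero_le hr0
  have hrlt : r < w := by
    have : (r : ℤ) < w := hrr ▸ hr1
    exact_mod_cast this
  rw [hrr, zpow_natCast] at hr
  have he1 : C.e ⟨i, ⟨r, hrlt⟩⟩ = C.e ⟨i, ⟨0, hw⟩⟩ := by
    rw [C.he, C.he]
    show (τ ^ r)⁻¹ • b = (τ ^ 0)⁻¹ • b
    rw [pow_zero, inv_one, one_smul, inv_smul_eq_iff, hr]
  have he2 := C.e.injective he1
  have hr0' : r = 0 := by
    have h3 := (Sigma.mk.inj_iff.mp he2).2
    have h4 := eq_of_heq h3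
    exact congrArg Fin.val h4
  rw [hr0'] at hrr
  exact Int.dvd_of_emod_eq_zero (by rw [hrr]; rfl)

/-- **(I3)** an element `δ τ^m δ⁻¹` of `Γ = Stab(ω₀)` is `Γ`-conjugate to a power of one of the cusp
generators of a cusp system. -/
theorem exists_conj_zpow_γ {τ : G} {ω₀ : Ω} (C : CuspSys τ ω₀) (δ : G) (m : ℤ)
    (h : δ * τ ^ m * δ⁻¹ ∈ MulAction.stabilizer G ω₀) :
    ∃ (i : C.I) (n : ℤ) (γ : MulAction.stabilizer G ω₀),
      (⟨_, h⟩ : MulAction.stabilizer G ω₀) = γ * (C.γ i) ^ n * γ⁻¹ := by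
  obtain ⟨⟨i, k⟩, hik⟩ := C.e.surjective (δ⁻¹ • ω₀)
  rw [C.he] at hik
  have hw : 0 < C.w i := Fin.pos k
  set b := (C.h i)⁻¹ • ω₀ with hb
  -- `γ₀ := h_i τ^k δ⁻¹ ∈ Γ`
  have hγ₀ : C.h i * τ ^ (k : ℕ) * δ⁻¹ ∈ MulAction.stabilizer G ω₀ := by
    rw [MulAction.mem_stabilizer_iff, mul_smul, mul_smul, ← hik, smul_inv_smul, hb, smul_inv_smul]
  -- `τ^m` fixes `δ⁻¹ ω₀`, hence `b`
  have hfix1 : τ ^ m • (δ⁻¹ • ω₀) = δ⁻¹ • ω₀ := by
    have h1 := MulAction.mem_stabilizer_iff.mp h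
    rw [mul_smul, mul_smul] at h1
    exact eq_inv_smul_iff.mpr h1
  have hc : τ ^ (k : ℕ) * τ ^ m * (τ ^ (k : ℕ))⁻¹ = τ ^ m := by
    rw [← zpow_natCast, ← zpow_add, ← zpow_neg, ← zpow_add]
    congr 1; ring
  have hfix2 : τ ^ m • b = b := by
    have h1 : (τ ^ (k : ℕ) * τ ^ m * (τ ^ (k : ℕ))⁻¹) • b = b := by
      rw [mul_smul, mul_smul, hik, hfix1, ← hik, smul_inv_smul]
    rwa [hc] at h1
  obtain ⟨q, hq⟩ := CuspSys_dvd_of_zpow_smul_eq C i hw m hfix2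
  refine ⟨i, q, (⟨_, hγ₀⟩ : MulAction.stabilizer G ω₀)⁻¹, ?_⟩
  apply Subtype.ext
  simp only [Subgroup.coe_mul, Subgroup.coe_inv, Subgroup.coe_zpow, CuspSys.coe_γ, inv_inv]
  rw [conj_zpow, ← zpow_natCast τ (C.w i), ← zpow_mul, ← hq]
  have hc' : (τ ^ (k : ℕ))⁻¹ * τ ^ m * τ ^ (k : ℕ) = τ ^ m := by
    rw [← zpow_natCast, ← zpow_neg, ← zpow_add, ← zpow_add]
    congr 1; ring
  calc δ * τ ^ m * δ⁻¹ = δ * ((τ ^ (k : ℕ))⁻¹ * τ ^ m * τ ^ (k : ℕ)) * δ⁻¹ := by rw [hc']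
    _ = (C.h i * τ ^ (k : ℕ) * δ⁻¹)⁻¹ * (C.h i * τ ^ m * (C.h i)⁻¹) *
          (C.h i * τ ^ (k : ℕ) * δ⁻¹) := by group

end Generic

/-! ### the instance `G = SL(2,ℤ)`, `Ω = G ⧸ Γ`, `τ = T` -/

section Instance

open ModularCurve.Period ModularGroup
open scoped MatrixGroups

variable {Γ : Subgroup SL(2, ℤ)} {A : Type*} [AddCommGroup A]

/-- **(I3), instance**: for `-1 ∈ Γ` and a target without `2`-torsion, a hom `Γ → A` is parabolic
(Prelude sense) iff it kills the cusp generators of any cusp system for `(T, ω₀)`. -/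
theorem isParabolicHom_iff_γ (hneg : (-1 : SL(2, ℤ)) ∈ Γ)
    (h2 : ∀ a : A, a + a = 0 → a = 0) (C : CuspSys (T : SL(2, ℤ)) (base Γ))
    (φ : Additive Γ →+ A) :
    IsParabolicHom Γ φ ↔ ∀ i, φ (Additive.ofMul (stabEquiv Γ (C.γ i))) = 0 := by
  rw [isParabolicHom_iff_conj_T hneg h2]
  constructor
  · intro hφ i
    have hmem : C.h i * T ^ ((C.w i : ℕ) : ℤ) * (C.h i)⁻¹ ∈ Γ := by
      rw [zpow_natCast]
      have h3 : ((C.γ i : MulAction.stabilizer SL(2, ℤ) (base Γ)) : SL(2, ℤ)) ∈ Γ :=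
        (stabEquiv Γ (C.γ i)).2
      exact h3
    have h1 := hφ (C.h i) (C.w i : ℤ) hmem
    have heq : (⟨_, hmem⟩ : Γ) = stabEquiv Γ (C.γ i) := by
      apply Subtype.ext
      show C.h i * T ^ ((C.w i : ℕ) : ℤ) * (C.h i)⁻¹ = _
      rw [coe_stabEquiv, CuspSys.coe_γ, zpow_natCast]
    rwa [heq] at h1
  · intro hφ δ m h
    have h' : δ * T ^ m * δ⁻¹ ∈ MulAction.stabilizer SL(2, ℤ) (base Γ) := by
      rw [stabilizer_base]; exact h
    obtain ⟨i, n, γ, hγ⟩ := exists_conj_zpow_γ C δ m h'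
    have heq : (⟨_, h⟩ : Γ) = stabEquiv Γ γ * (stabEquiv Γ (C.γ i)) ^ n * (stabEquiv Γ γ)⁻¹ := by
      rw [← map_zpow, ← map_inv, ← map_mul, ← map_mul, ← hγ]
      rfl
    rw [heq, ofMul_mul, ofMul_mul, map_add, map_add, ofMul_inv, map_neg, ofMul_zpow, map_zsmul,
      hφ i, smul_zero]
    abel

end Instance

end Fermat.Agent.S41.PDInst24
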