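/-
S41 / C7c [PD-DICT] — the `PDModel3` datum of `SL(2,ℤ) ⧸ Γ`, the morphism for `Γ' ≤ Γ`, and the
compatibility of the dictionary crossed homs with `res` / `cores` (helper24).

Conventions (helper10 #2957 (C)): `D.s = toPerm S⁻¹`, `D.t = toPerm (S * T)⁻¹`, so that
`D.S = act S`, `D.T = act (S * T)`.

* `datum Γ hneg : PDModel3.Datum (SL(2,ℤ) ⧸ Γ)`;
* `morOfLE hle … : PDModel3.Mor D₂ D₁` for ANY data on `G ⧸ Γ'`, `G ⧸ Γ` following the conventions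
  (so it applies to any other definition of the same datum); `mor hle hneg'` for `datum`;
* `mor_pull_eq`, `mor_push_eq` : helper3's `Mor.pull / Mor.push` are `PDInst24.pull / push`;
* `evΓ_isCm_pull` (= `res`) and `evΓ_isCm_push` (= `cores`): the evaluation of THE crossed hom of
  `φ.pull m` (resp. `φ.push m'`) is the restriction (resp. the transfer) of the evaluation of THE
  crossed hom of `m` (resp. `m'`).
-/
import Mathlib
import Fermat.Agent.S41.PDModel3.Functorial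
import Fermat.Agent.S41.PDInst24.Natural

set_option autoImplicit false
set_option linter.unusedSectionVars false

namespace Fermat.Agent.S41.PDInst24

open Matrix ModularGroup Finset
open Fermat.Agent.S41.CuspSum22 Fermat.Agent.S41.PDModel3
open scoped MatrixGroups

section Datum

variable (Γ : Subgroup SL(2, ℤ)) (hneg : (-1 : SL(2, ℤ)) ∈ Γ)
include hneg

theorem S_inv_smul_S_inv_smul (x : SL(2, ℤ) ⧸ Γ) :
    (S : SL(2, ℤ))⁻¹ • (S : SL(2, ℤ))⁻¹ • x = x := by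
  rw [← mul_smul, ← _root_.mul_inv_rev, inv_smul_eq_iff, S_mul_S_smul hneg]

theorem ST_inv_smul_cube (x : SL(2, ℤ) ⧸ Γ) :
    (S * T : SL(2, ℤ))⁻¹ • (S * T : SL(2, ℤ))⁻¹ • (S * T : SL(2, ℤ))⁻¹ • x = x := by
  rw [← mul_smul, ← mul_smul, ← _root_.mul_inv_rev, ← _root_.mul_inv_rev, inv_smul_eq_iff]
  have : (S * T : SL(2, ℤ)) * ((S * T) * (S * T)) = (S * T) ^ 3 := by
    rw [pow_succ, pow_two]; simp only [mul_assoc]
  rw [this, ST_pow_three_smul hneg]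

/-- the `(s, t)`-datum of the `SL(2,ℤ)`-set `SL(2,ℤ) ⧸ Γ` (`-1 ∈ Γ`). -/
def datum : Datum (SL(2, ℤ) ⧸ Γ) where
  s := MulAction.toPerm (S : SL(2, ℤ))⁻¹
  t := MulAction.toPerm (S * T : SL(2, ℤ))⁻¹
  hs := S_inv_smul_S_inv_smul Γ hneg
  ht := ST_inv_smul_cube Γ hneg

@[simp] theorem datum_s_apply (x : SL(2, ℤ) ⧸ Γ) :
    (datum Γ hneg).s x = (S : SL(2, ℤ))⁻¹ • x := rfl

@[simp] theorem datum_t_apply (x : SL(2, ℤ) ⧸ Γ) :
    (datum Γ hneg).t x = (S * T : SL(2, ℤ))⁻¹ • x := rfl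

variable [Fintype (SL(2, ℤ) ⧸ Γ)] [DecidableEq (SL(2, ℤ) ⧸ Γ)]

theorem datum_S_eq_act (m : SL(2, ℤ) ⧸ Γ → ℤ) :
    (datum Γ hneg).S m = act (S : SL(2, ℤ)) m := rfl

theorem datum_T_eq_act (m : SL(2, ℤ) ⧸ Γ → ℤ) :
    (datum Γ hneg).T m = act (S * T : SL(2, ℤ)) m := rfl

end Datum

section Mor

variable {Γ' Γ : Subgroup SL(2, ℤ)} (hle : Γ' ≤ Γ)
variable [Fintype (SL(2, ℤ) ⧸ Γ')] [DecidableEq (SL(2, ℤ) ⧸ Γ')]
variable [Fintype (SL(2, ℤ) ⧸ Γ)] [DecidableEq (SL(2, ℤ) ⧸ Γ)]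

/-- the morphism of data induced by `Γ' ≤ Γ`, for ANY data following the conventions. -/
def morOfLE (D₂ : Datum (SL(2, ℤ) ⧸ Γ')) (D₁ : Datum (SL(2, ℤ) ⧸ Γ))
    (h₂s : ∀ x, D₂.s x = (S : SL(2, ℤ))⁻¹ • x) (h₂t : ∀ x, D₂.t x = (S * T : SL(2, ℤ))⁻¹ • x)
    (h₁s : ∀ x, D₁.s x = (S : SL(2, ℤ))⁻¹ • x) (h₁t : ∀ x, D₁.t x = (S * T : SL(2, ℤ))⁻¹ • x) :
    Mor D₂ D₁ where
  π := proj hle
  hs x := by rw [h₂s, h₁s, proj_smul]
  ht x := by rw [h₂t, h₁t, proj_smul]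

/-- the morphism `datum Γ' → datum Γ`. -/
def mor (hneg' : (-1 : SL(2, ℤ)) ∈ Γ') : Mor (datum Γ' hneg') (datum Γ (hle hneg')) :=
  morOfLE hle _ _ (fun _ => rfl) (fun _ => rfl) (fun _ => rfl) (fun _ => rfl)

@[simp] theorem mor_π (hneg' : (-1 : SL(2, ℤ)) ∈ Γ') : (mor hle hneg').π = proj hle := rfl

variable {D₂ : Datum (SL(2, ℤ) ⧸ Γ')} {D₁ : Datum (SL(2, ℤ) ⧸ Γ)} (φ : Mor D₂ D₁)
  (hφ : φ.π = proj hle)
include hφ

theorem mor_pull_eq (m : SL(2, ℤ) ⧸ Γ → ℤ) : φ.pull m = pull (proj hle) m := by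
  funext x
  rw [Mor.pull_apply, hφ]; rfl

theorem mor_push_eq (m' : SL(2, ℤ) ⧸ Γ' → ℤ) : φ.push m' = push (proj hle) m' := by
  funext y
  rw [Mor.push_apply, push_apply, Finset.sum_filter, hφ]

/-- **res** in the dictionary: the crossed hom of `φ.pull m` evaluates to the restriction of the
evaluation of the crossed hom of `m`. -/
theorem evΓ_isCm_pull (hneg' : (-1 : SL(2, ℤ)) ∈ Γ') {m : SL(2, ℤ) ⧸ Γ → ℤ}
    {z : SL(2, ℤ) → SL(2, ℤ) ⧸ Γ → ℤ} (hz : IsCm m z)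
    {z' : SL(2, ℤ) → SL(2, ℤ) ⧸ Γ' → ℤ} (hz' : IsCm (φ.pull m) z') (γ' : Γ') :
    evΓ Γ' hz'.isCoc (Additive.ofMul γ') =
      evΓ Γ hz.isCoc (Additive.ofMul (Subgroup.inclusion hle γ')) := by
  have h1 : IsCm (φ.pull m) (fun g => pull (proj hle) (z g)) := by
    rw [mor_pull_eq hle φ hφ]
    exact isCm_pull (proj_smul hle) hz
  have h2 : z' = fun g => pull (proj hle) (z g) :=
    IsCm.unique (fun ω => neg_one_smul hneg' ω) hz' h1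
  subst h2
  rfl

/-- **cores** in the dictionary: the crossed hom of `φ.push m'` evaluates to the transfer of the
evaluation of the crossed hom of `m'` (any right transversal `r` of `Γ'` in `Γ`, any `(σ, c)` with
`r i * γ = c i * r (σ i)`). -/
theorem evΓ_isCm_push (hneg' : (-1 : SL(2, ℤ)) ∈ Γ') {m' : SL(2, ℤ) ⧸ Γ' → ℤ}
    {z' : SL(2, ℤ) → SL(2, ℤ) ⧸ Γ' → ℤ} (hz' : IsCm m' z')
    {z : SL(2, ℤ) → SL(2, ℤ) ⧸ Γ → ℤ} (hz : IsCm (φ.push m') z)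
    {ι : Type*} [Fintype ι] (r : ι → SL(2, ℤ)) (hrΓ : ∀ i, r i ∈ Γ)
    (hr : ∀ g ∈ Γ, ∃! i, g * (r i)⁻¹ ∈ Γ') (γ : Γ) (σ : ι ≃ ι) (c : ι → Γ')
    (h : ∀ i, r i * (γ : SL(2, ℤ)) = (c i : SL(2, ℤ)) * r (σ i)) :
    evΓ Γ hz.isCoc (Additive.ofMul γ) = ∑ i, evΓ Γ' hz'.isCoc (Additive.ofMul (c i)) := by
  have h1 : IsCm (φ.push m') (fun g => push (proj hle) (z' g)) := by
    rw [mor_push_eq hle φ hφ]
    exact isCm_push (proj_smul hle) hz'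
  have h2 : z = fun g => push (proj hle) (z' g) :=
    IsCm.unique (fun ω => neg_one_smul (hle hneg') ω) hz h1
  subst h2
  exact (sum_evΓ_eq_evΓ_push hle hz'.isCoc r hrΓ hr γ σ c h).symm

end Mor

end Fermat.Agent.S41.PDInst24
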